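import Mathlib
import Fermat.Prelude.Thm_ModularForm_sturm_bound_Gamma0
import Fermat.Prelude.Thm_CongruenceSubgroup_one_mem_strictPeriods_Gamma0

set_option autoImplicit false

open scoped MatrixGroups

namespace Fermat.Agent.Gamma0IndexBound

open CongruenceSubgroup

/-- The first column of a matrix in `SL(2, ℤ)`, reduced mod `N`. -/
noncomputable def firstCol (N : ℕ) (γ : SL(2, ℤ)) : ZMod N × ZMod N :=
  (((γ 0 0 : ℤ) : ZMod N), ((γ 1 0 : ℤ) : ZMod N))

theorem inv_mul_mem_Gamma0_of_firstCol_eq (N : ℕ) {a b : SL(2, ℤ)}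
    (h : firstCol N a = firstCol N b) : a⁻¹ * b ∈ Gamma0 N := by
  rw [Gamma0_mem]
  have h0 : ((a 0 0 : ℤ) : ZMod N) = ((b 0 0 : ℤ) : ZMod N) := congrArg Prod.fst h
  have h1 : ((a 1 0 : ℤ) : ZMod N) = ((b 1 0 : ℤ) : ZMod N) := congrArg Prod.snd h
  have hinv : ((a⁻¹ * b : SL(2, ℤ)) 1 0 : ℤ) = - a 1 0 * b 0 0 + a 0 0 * b 1 0 := by
    rw [Matrix.SpecialLinearGroup.coe_mul, Matrix.SpecialLinearGroup.SL2_inv_expl,
      Matrix.mul_apply, Fin.sum_univ_two]
    simp
  rw [hinv]
  push_cast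
  rw [← h0, ← h1]
  ring

theorem index_Gamma0_le (N : ℕ) [NeZero N] : (Gamma0 N).index ≤ N ^ 2 := by
  classical
  have hinj : Function.Injective
      (fun c : SL(2, ℤ) ⧸ Gamma0 N => firstCol N (Quotient.out c)) := by
    intro c c' hcc'
    have hmem := inv_mul_mem_Gamma0_of_firstCol_eq N hcc'
    have : (QuotientGroup.mk (Quotient.out c) : SL(2, ℤ) ⧸ Gamma0 N)
        = QuotientGroup.mk (Quotient.out c') := QuotientGroup.eq.mpr hmem
    simpa using this
  have hcard := Nat.card_le_card_of_injective _ hinj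
  have : Nat.card (ZMod N × ZMod N) = N ^ 2 := by
    rw [Nat.card_prod, Nat.card_zmod]; ring
  rw [this] at hcard
  exact hcard

/-- A weight-two cusp form of level `Γ₀(N)` with `N ^ 2 < 6` vanishes. -/
theorem cuspForm_weight_two_eq_zero (N : ℕ) [NeZero N] (hN : N ^ 2 < 6)
    (f : CuspForm (CongruenceSubgroup.Gamma0 N) 2) : f = 0 := by
  have hidx : (Gamma0 N).index < 6 := lt_of_le_of_lt (index_Gamma0_le N) hN
  have hzero : CuspForm.toModularFormₗ f = 0 := by
    apply ModularForm.sturm_bound_Gamma0 N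
    intro n hn
    have hb : ((2 : ℤ) * ((Gamma0 N).index : ℤ)).toNat / 12 = 0 := by
      omega
    rw [hb] at hn
    have hn0 : n = 0 := Nat.le_zero.mp hn
    subst hn0
    exact CuspFormClass.qExpansion_coeff_zero f one_pos
      (CongruenceSubgroup.one_mem_strictPeriods_Gamma0 N)
  exact CuspForm.toModularFormₗ_injective (by rw [hzero, map_zero])

end Fermat.Agent.Gamma0IndexBound
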