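import Fermat.Statements.S24
import Fermat.Agent.S24.Final
import Fermat.Agent.S24.AnaFinal
import Fermat.Agent.S24.AnaMer
import Fermat.Agent.S24.AnaEv
import Fermat.Agent.S24.HolStab
import Fermat.Agent.S24.SymGen
import Fermat.Agent.S24.DegMain

set_option autoImplicit false
open ModularCurve

namespace Fermat.Agent.S24

theorem result (N : ℕ) [NeZero N]
    [AlgebraicCurve.HasCanonicalDivisor (K := AlgebraicClosure ℚ) (F := ↥(ModularCurve.modularFunctionFieldBar N))] :
    (AlgebraicCurve.genus (AlgebraicClosure ℚ) ↥(ModularCurve.modularFunctionFieldBar N) : ℚ)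
      = ModularCurve.genusFormula N := by
  haveI hfin : FiniteDimensional (IntermediateField.adjoin s24K {s24j N}) (s24F N) :=
    deg_finiteDimensional N
  have hnorm : ∀ f : s24F N, ∃ g ∈ IntermediateField.adjoin s24K {s24j N},
      ∀ q, ana_rho N q g = ∏ q', ana_rho N q' f :=
    sym_norm_mem (s24j N) (ana_rho N) (ana_rho_injective N) (ana_rho_x N) (ana_rho_K N)
      (deg_finrank_le N)
  exact fin_main_of_pkg N (adf_pkg N (amer_toMer N) (fun f => amer_toMer_algebraMap N f)
    (ana_rho N) (ana_rho_smul N) (ana_rho_injective N) (ana_rho_algebraMap N)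
    (fun q => ⟨ana_J N, rfl, ana_rho_j N q⟩) hnorm stab_val_S stab_val_ST)

end Fermat.Agent.S24
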