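-- Statement S23 (row 22): `CuspForm.HasIntegralStructure N 2`.
-- Proof ("Plan Q"): the q-expansion principle for `S_2(Γ₀(N))` (stability of the space under the
-- coefficientwise action of `Aut(ℂ)`, via norm/trace to level one and the primitive element
-- `Δ(Nτ)`), Galois descent, and bounded denominators from the finiteness of the Hecke algebra.
import Fermat.Statements.S23
import Fermat.Agent.S23.Assembly
import Fermat.Agent.S23.Twist
import Fermat.Agent.S23.U1
import Fermat.Agent.S23.Monic

set_option autoImplicit false
open CuspForm

namespace Fermat.Agent.S23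

theorem result (N : ℕ) [NeZero N] : CuspForm.HasIntegralStructure N 2 := by
  exact s23_of_T1 N fun σ f =>
    tw_T1_qCoeff_of N 2 σ f (u1_exists N 2 f) (mon_exists N 2 f (σ : ℂ →+* ℂ))

end Fermat.Agent.S23
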