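import Fermat.Statements.S02

set_option autoImplicit false
open FreyPackage

namespace Fermat.Agent.S02

/-- Coprime case with `b` even: adjust signs so that `a ≡ 3 mod 4`. -/
lemma nonempty_of_coprime_of_even (a b c : ℤ) (ha : a ≠ 0) (hb : b ≠ 0) (hc : c ≠ 0)
    (p : ℕ) (pp : p.Prime) (hp5 : 5 ≤ p) (H : a ^ p + b ^ p = c ^ p)
    (hgcd : gcd a b = 1) (hb2 : (2 : ℤ) ∣ b) : Nonempty FreyPackage := by
  have p_odd : Odd p := pp.odd_of_ne_two (by omega)
  have hb2' : (b : ZMod 2) = 0 := (ZMod.intCast_zmod_eq_zero_iff_dvd b 2).2 hb2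
  -- `a` is odd
  have ha_odd : ¬ (2 : ℤ) ∣ a := by
    intro h2a
    have h2 : (2 : ℤ) ∣ gcd a b := dvd_gcd h2a hb2
    rw [hgcd] at h2
    have := Int.le_of_dvd one_pos h2
    omega
  have hmod : a % 4 = 1 ∨ a % 4 = 3 := by omega
  rcases hmod with h1 | h3
  · -- negate everything
    refine ⟨{ a := -a, b := -b, c := -c, ha0 := neg_ne_zero.2 ha, hb0 := neg_ne_zero.2 hb,
              hc0 := neg_ne_zero.2 hc, p := p, pp := pp, hp5 := hp5, hFLT := ?_, hgcdab := ?_,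
              ha4 := ?_, hb2 := ?_ }⟩
    · rw [p_odd.neg_pow, p_odd.neg_pow, p_odd.neg_pow, ← H]; ring
    · have : gcd (-a) (-b) = gcd a b := by
        rw [show gcd (-a) (-b) = ((Int.gcd (-a) (-b) : ℕ) : ℤ) from rfl,
          show gcd a b = ((Int.gcd a b : ℕ) : ℤ) from rfl, Int.neg_gcd, Int.gcd_neg]
      rw [this, hgcd]
    · have h4 : ((-a : ℤ) : ZMod 4) = ((3 : ℤ) : ZMod 4) := by
        rw [ZMod.intCast_eq_intCast_iff_dvd_sub]
        norm_num
        omega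
      simpa using h4
    · have : (2 : ℤ) ∣ -b := (dvd_neg).2 hb2
      exact (ZMod.intCast_zmod_eq_zero_iff_dvd (-b) 2).2 this
  · refine ⟨{ a := a, b := b, c := c, ha0 := ha, hb0 := hb, hc0 := hc, p := p, pp := pp,
              hp5 := hp5, hFLT := H, hgcdab := hgcd, ha4 := ?_, hb2 := hb2' }⟩
    have h4 : ((a : ℤ) : ZMod 4) = ((3 : ℤ) : ZMod 4) := by
      rw [ZMod.intCast_eq_intCast_iff_dvd_sub]
      norm_num
      omega
    simpa using h4

/-- Coprime case. -/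
lemma nonempty_of_coprime (a b c : ℤ) (ha : a ≠ 0) (hb : b ≠ 0) (hc : c ≠ 0)
    (p : ℕ) (pp : p.Prime) (hp5 : 5 ≤ p) (H : a ^ p + b ^ p = c ^ p)
    (hgcd : gcd a b = 1) : Nonempty FreyPackage := by
  have p_odd : Odd p := pp.odd_of_ne_two (by omega)
  have hp0 : p ≠ 0 := pp.ne_zero
  by_cases hb2 : (2 : ℤ) ∣ b
  · exact nonempty_of_coprime_of_even a b c ha hb hc p pp hp5 H hgcd hb2
  by_cases ha2 : (2 : ℤ) ∣ a
  · refine nonempty_of_coprime_of_even b a c hb ha hc p pp hp5 (by rw [add_comm]; exact H) ?_ ha2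
    rw [gcd_comm]; exact hgcd
  -- both odd, so `c` is even
  have hc2 : (2 : ℤ) ∣ c := by
    have hao : Odd a := by
      rcases Int.even_or_odd a with h | h
      · exact absurd (even_iff_two_dvd.1 h) ha2
      · exact h
    have hbo : Odd b := by
      rcases Int.even_or_odd b with h | h
      · exact absurd (even_iff_two_dvd.1 h) hb2
      · exact h
    have hsum : Even (a ^ p + b ^ p) := (hao.pow).add_odd (hbo.pow)
    rw [H] at hsum
    have hce : Even c := (Int.even_pow.1 hsum).1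
    exact even_iff_two_dvd.1 hce
  have hgcdac : gcd a c = 1 := by
    rw [← FreyPackage.gcdab_eq_gcdac pp.pos H]; exact hgcd
  refine nonempty_of_coprime_of_even a (-c) (-b) ha (neg_ne_zero.2 hc) (neg_ne_zero.2 hb)
    p pp hp5 ?_ ?_ ((dvd_neg).2 hc2)
  · rw [p_odd.neg_pow, p_odd.neg_pow, ← H]; ring
  · have : gcd a (-c) = gcd a c := by
      rw [show gcd a (-c) = ((Int.gcd a (-c) : ℕ) : ℤ) from rfl,
        show gcd a c = ((Int.gcd a c : ℕ) : ℤ) from rfl, Int.gcd_neg]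
    rw [this, hgcdac]

theorem result (a b c : ℤ) (ha : a ≠ 0) (hb : b ≠ 0) (hc : c ≠ 0) (p : ℕ) (pp : p.Prime) (hp5 : 5 ≤ p) (H : a ^ p + b ^ p = c ^ p) : Nonempty FreyPackage := by
  have hp0 : p ≠ 0 := pp.ne_zero
  -- divide out by the gcd of `a` and `b`
  set d : ℤ := ((Int.gcd a b : ℕ) : ℤ) with hd
  have hdpos : 0 < Int.gcd a b := Int.gcd_pos_of_ne_zero_left b ha
  have hd0 : d ≠ 0 := by
    have : (0 : ℤ) < d := Int.natCast_pos.2 hdpos
    exact this.ne'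
  obtain ⟨a', ha'⟩ : d ∣ a := Int.gcd_dvd_left a b
  obtain ⟨b', hb'⟩ : d ∣ b := Int.gcd_dvd_right a b
  have hdc : d ∣ c := by
    rw [← Int.pow_dvd_pow_iff hp0, ← H]
    exact dvd_add (pow_dvd_pow_of_dvd ⟨a', ha'⟩ p) (pow_dvd_pow_of_dvd ⟨b', hb'⟩ p)
  obtain ⟨c', hc'⟩ := hdc
  have ha'0 : a' ≠ 0 := by rintro rfl; exact ha (by rw [ha', mul_zero])
  have hb'0 : b' ≠ 0 := by rintro rfl; exact hb (by rw [hb', mul_zero])
  have hc'0 : c' ≠ 0 := by rintro rfl; exact hc (by rw [hc', mul_zero])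
  have H' : a' ^ p + b' ^ p = c' ^ p := by
    have hdp : d ^ p ≠ 0 := pow_ne_zero p hd0
    apply mul_left_cancel₀ hdp
    rw [mul_add, ← mul_pow, ← mul_pow, ← mul_pow, ← ha', ← hb', ← hc', H]
  have hgcd' : gcd a' b' = 1 := by
    have h1 : Int.gcd a b = Int.gcd a b * Int.gcd a' b' := by
      conv_lhs => rw [ha', hb', Int.gcd_mul_left]
      simp [hd]
    have h2 : Int.gcd a' b' = 1 := by
      have := Nat.eq_of_mul_eq_mul_left hdpos (by rw [mul_one]; exact h1.symm :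
        Int.gcd a b * Int.gcd a' b' = Int.gcd a b * 1)
      exact this
    change ((Int.gcd a' b' : ℕ) : ℤ) = 1
    rw [h2]; rfl
  exact nonempty_of_coprime a' b' c' ha'0 hb'0 hc'0 p pp hp5 H' hgcd'

end Fermat.Agent.S02
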