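import Fermat.Statements.S05
import Fermat.Agent.S05.FreyMain

set_option autoImplicit false
open WeierstrassCurve WeierstrassCurve.Affine WeierstrassCurve.Affine.Point
open CuspForm ModularFormClass UpperHalfPlane
open FreyPackage

namespace Fermat.Agent.S05

theorem result (P : FreyPackage) {q : ℕ} (hq : q.Prime) (hq2 : q ≠ 2) (hqp : q ≠ P.p) : P.GaloisRepUnramifiedAt q := by
  intro A hA σ hσ x
  obtain ⟨O, h1, h2, -⟩ := exists_ordVal_of_valuationSubring A q hq hA
  have D : PlaceData A q O := ⟨hq, hA, h1, h2⟩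
  have hpP : P.p • x.1 = 0 := by
    have := x.2
    rw [Submodule.mem_torsionBy_iff] at this
    rw [← natCast_zsmul]
    exact this
  apply Subtype.ext
  change Point.map (W' := (P.freyCurve : WeierstrassCurve.Affine ℚ)) σ.toAlgHom x.val = x.val
  by_cases ha : (q : ℤ) ∣ P.a
  · exact frey_fix_a P D hq2 hqp ha hσ hpP
  by_cases hb : (q : ℤ) ∣ P.b
  · exact frey_fix_b P D hq2 hqp hb hσ hpP
  by_cases hc : (q : ℤ) ∣ P.c
  · exact frey_fix_c P D hq2 hqp hc hσ hpP
  exact frey_fix_good P D hq2 hqp ha hb hc hσ hpP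

end Fermat.Agent.S05
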