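-- S14 (row 13): the Ext-vanishing property `ExtVanishingCts p` for every prime `p ≥ 3`.
-- Assembly: `m14x_S14_of_core` (CrossFin3) from the first inequality of class field theory
-- (`m14an6_core`, An6Core) and the existence of primes of residue degree `≥ 2`
-- (`m14anb_main`, AnBMain).
import Fermat.Statements.S14
import Fermat.Agent.M14.CrossFin3
import Fermat.Agent.M14.An6Core
import Fermat.Agent.M14.AnBMain

set_option autoImplicit false
open ExtCitation

namespace Fermat.Agent.S14

theorem m14_core_final : Fermat.Agent.M14.m14x_CORE :=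
  fun _ _ _ _ _ _ _ m _ G' _ _ χ' hmul hprinc hnorm hsurj =>
    Fermat.Agent.M14.m14an6_core m G' χ' hmul hprinc hnorm hsurj

theorem result {p : ℕ} [Fact p.Prime] (h3 : 3 ≤ p) :
    ExtCitation.ExtVanishingCts p :=
  Fermat.Agent.M14.m14x_S14_of_core m14_core_final Fermat.Agent.M14.m14anb_main h3

end Fermat.Agent.S14
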