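-- Statement S16 (row 15): the index of the Eisenstein ideal of level `p` in the integral Hecke
-- algebra is `(p - 1) / gcd (p - 1, 12)`.
-- Proof: `Fermat/Agent/M16/` -- TOP (perfect pairing between the Hecke algebra and the lattice of
-- integral cusp forms) reduces the statement to an upper bound (no cusp form is congruent to the
-- Eisenstein series modulo more than `n`; traces and norms to level one) and a lower bound
-- (duality with the functions on `X₀(p)` regular off the cusp `∞`, the residue theorem,
-- integrality at both cusps, and the values at the elliptic points of order 2).
import Fermat.Statements.S16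
import Fermat.Agent.M16.Top
import Fermat.Agent.M16.UbMain
import Fermat.Agent.M16.LbPre
import Fermat.Agent.M16.IntMain

set_option autoImplicit false
open ModularCurve CuspForm
open ModularCurve

namespace Fermat.Agent.S16

theorem result
    (p : ℕ) [Fact p.Prime] :
    Nat.card (↥(heckeLatticeAlgebra p ∅) ⧸
        Ideal.map ((latticeRestrictHom p ∅).toRingHom.comp (heckeEvalForms p 2))
          (eisensteinIdeal p)) =
      eisensteinNumerator p := by
  exact Fermat.Agent.M16.m16_main Fermat.Agent.M16.m16ub_main
    (Fermat.Agent.M16.m16lb_key_of_int Fermat.Agent.M16.m16int_main) p

end Fermat.Agent.S16
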