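import Fermat.Statements.S20
import Fermat.Agent.S20.Asm
import Fermat.Agent.S20.FcVal
import Fermat.Agent.S20.Inv
import Fermat.Agent.S20.SymS
import Fermat.Agent.S20.SymCF
import Fermat.Agent.S20.Dict
import Fermat.Agent.S20.RR

set_option autoImplicit false
open CuspForm

namespace Fermat.Agent.S20

theorem result (N : ℕ) [NeZero N] :
    (Module.finrank ℂ (CuspForm (CongruenceSubgroup.Gamma0 N) 2) : ℚ) = ModularCurve.genusFormula N := by
  haveI hfin : FiniteDimensional (IntermediateField.adjoin ℂ {s20J N}) (s20F N) :=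
    s20_finiteDimensional N
  have hx : Transcendental ℂ (s20J N) := s20_transcendental N
  exact asm20_main_of N (fcv_pkg_s20 N (s20_norm_mem N)) hx
    (fun W hW => rr_canonical (s20J N) hx W hW)
    (fun W hW => s20_dict_of (fcv_pkg_s20 N (s20_norm_mem N)) (s20_incl N)
      (fcv_s20_iota N (s20_norm_mem N)) hx (fcv_s20_i1 N)
      (fun γ hγ h => fcv_s20_i2 N γ hγ h)
      (fcv_s20_val N (s20_norm_mem N)) (fcv_s20_valInfty N (s20_norm_mem N))
      (symc_exists_Phi (s20_incl N) (fcv_s20_i1 N) (s20J N) (s20JN N) (s20_incl_J N)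
        (s20_incl_JN N))
      W hW)

end Fermat.Agent.S20
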