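import Fermat.Statements.S21
import Fermat.Agent.S20
import Fermat.Agent.S21.Asm
import Fermat.Agent.S21.Prim
import Fermat.Agent.S21.Par
import Fermat.Agent.S21.Inj

set_option autoImplicit false
open ModularCurve

namespace Fermat.Agent.S21

theorem result (N : ℕ) [NeZero N] :
    Function.Injective (ModularCurve.periodHomPair N)
      ∧ LinearMap.range (ModularCurve.periodHomPair N)
          = ModularCurve.Period.parabolicHoms ℂ (CongruenceSubgroup.Gamma0 N) ℂ := by
  exact asm21_main_of N (Fermat.Agent.S20.result N) (s21_existsPeriodMapLinear N)
    (s21_periodMap_mem N) (s21_injective N)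

end Fermat.Agent.S21
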