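import Fermat.Statements.S28
import Fermat.Agent.M28.BmMain
import Fermat.Agent.M28.T
import Fermat.Agent.M28.AGlue

set_option autoImplicit false
open AlgebraicGeometry CategoryTheory CategoryTheory.Limits ModularCurve ModularCurve.IgusaScheme
noncomputable section
set_option autoImplicit false
open ModularCurve ModularCurve.IgusaScheme

namespace Fermat.Agent.S28

set_option maxHeartbeats 4000000 in
set_option synthInstance.maxHeartbeats 400000 in
theorem result
    (N : ℕ) [NeZero N] (ℓ : ℕ) [Fact ℓ.Prime] (hℓN : ¬ ℓ ∣ N)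
    (K : Type) [Field K] [CharP K ℓ] [Algebra ↥(GaloisRep.ratLocalizedAt ℓ) K] :
    IsIntegral ↑(pullback (igusaTo N ℓ)
      (Spec.map (CommRingCat.ofHom (algebraMap ↥(GaloisRep.ratLocalizedAt ℓ) K)))) := by
  obtain ⟨θfin, hfin⟩ := Fermat.Agent.M28.m28b_theta N ℓ hℓN {jFull N} (Or.inl rfl)
  obtain ⟨θinf, hinf⟩ := Fermat.Agent.M28.m28b_theta N ℓ hℓN {(jFull N)⁻¹} (Or.inr (Or.inl rfl))
  obtain ⟨θmid, hmid⟩ := Fermat.Agent.M28.m28b_theta N ℓ hℓN {jFull N, (jFull N)⁻¹}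
    (Or.inr (Or.inr rfl))
  exact Fermat.Agent.M28.m28a_isIntegral N ℓ K
    (Fermat.Agent.M28.m28t_isDomain ℓ θfin hfin K)
    (Fermat.Agent.M28.m28t_isDomain ℓ θinf hinf K)
    (Fermat.Agent.M28.m28t_isDomain ℓ θmid hmid K)

end Fermat.Agent.S28
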