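import Fermat.Statements.S37
import Fermat.Agent.M18.DifFinal
import Fermat.Agent.M37.Frob
import Fermat.Agent.M37.RhoFinal
import Fermat.Agent.M37.E2Main
import Fermat.Agent.M37.KcLeaf

set_option autoImplicit false
open ModularCurve

namespace Fermat.Agent.S37

theorem result (N p : ℕ) [NeZero N] (hcomm : ModularCurve.HeckeOperatorsCommuteBar N) : letI := ModularCurve.heckeModuleBar N; ∀ (_ : SMulCommClass (AlgebraicClosure ℚ ≃ₐ[ℚ] AlgebraicClosure ℚ) ModularCurve.HeckeAlg (ModularCurve.JZero N)), ModularCurve.SpecializationExists (K := ℚ) (L := AlgebraicClosure ℚ) N p (ModularCurve.JZero N) := by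
  exact Fermat.Agent.M37.m37fr_result N p hcomm (Fermat.Agent.M37.m37r_E1 N)
    (fun ℓ hℓ hℓN A hA h m hm z hmz hz =>
      haveI : Fact ℓ.Prime := ⟨hℓ⟩
      Fermat.Agent.M18.m18dif_S18_final hℓN hA h m hm z hmz hz)
    (Fermat.Agent.M37.m37e2_E2 N) (Fermat.Agent.M37.m37kc_E3 N)

end Fermat.Agent.S37
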