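import Fermat.Statements.S49
import Fermat.Agent.S49.PartA
import Fermat.Agent.S49.PartB
import Fermat.Agent.S49.PartC

set_option autoImplicit false
open CuspForm EisensteinWeightOne CongruenceSubgroup ModularFormClass
open FLT FLT.AbstractIntegralStructure

namespace Fermat.Agent.S49

theorem result
    {N : ℕ} [NeZero N] (h : CuspForm.HasIntegralBasis N) {a : ℕ → ℤ}
    (heig : FormalHecke.IsEigensystem
      (fun ℓ => if ℓ ∣ N then 0 else ((chiNegThree ℓ : ℤ) : ℤ)) a)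
    (hreal : CuspForm.IsLatticeRealized N a) :
    ∃ (f : CuspForm (Gamma0 N) 2) (_ : f.IsNormalizedEigenform)
      (𝔪' : Ideal (integralClosure ℤ ℂ)), 𝔪'.IsMaximal ∧
      ((3 : ℕ) : integralClosure ℤ ℂ) ∈ 𝔪' ∧
      ∀ (ℓ : ℕ) (_ : ℓ.Prime) (_ : ¬ ℓ ∣ N),
        ∃ c : integralClosure ℤ ℂ, (c : ℂ) = ModularFormClass.qCoeff f ℓ ∧
          c - (a ℓ : integralClosure ℤ ℂ) ∈ 𝔪' := by
  classical
  obtain ⟨f₀, hf₀, hf₀3, hf₀eig⟩ := Fermat.Agent.S49C.exists_mod_three_data heig hreal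
  obtain ⟨g, c, 𝔪', hg, hmax, h3, hc⟩ :=
    Fermat.Agent.S49A.exists_eigenvector_lift (CuspForm.intLattice N 2)
      (CuspForm.intLattice_fg N 2) (Fermat.Agent.S49C.span_intLattice_eq_top h)
      (Fermat.Agent.S49C.heckeFamily N) Fermat.Agent.S49C.heckeFamily_commute
      (fun i _ hv => Fermat.Agent.S49C.heckeFamily_mem_intLattice i hv)
      3 Nat.prime_three f₀ hf₀ hf₀3 (fun ℓ => a ℓ) hf₀eig
  obtain ⟨f, hf, hfc⟩ :=
    Fermat.Agent.S49B.exists_normalized_eigenform_of_eigenvector g hg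
      (fun ℓ => if hℓ : ℓ.Prime then ((c ⟨ℓ, hℓ⟩ : integralClosure ℤ ℂ) : ℂ) else 0)
      (fun ℓ hℓ hℓN => by
        rw [dif_pos hℓ, ← Fermat.Agent.S49C.heckeFamily_of_not_dvd hℓ hℓN]
        exact (hc ⟨ℓ, hℓ⟩).1)
      (fun q hq hqN => by
        rw [dif_pos hq, ← Fermat.Agent.S49C.heckeFamily_of_dvd hq hqN]
        exact (hc ⟨q, hq⟩).1)
  refine ⟨f, hf, 𝔪', hmax, h3, fun ℓ hℓ _ => ⟨c ⟨ℓ, hℓ⟩, ?_, (hc ⟨ℓ, hℓ⟩).2⟩⟩
  rw [hfc ℓ hℓ, dif_pos hℓ]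

end Fermat.Agent.S49
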