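-- Statement S51 (row 45): for a semistable integral Weierstrass curve, at least one of the
-- mod-3 and mod-5 representations is irreducible.
import Fermat.Statements.S51
import Fermat.Agent.S51.Assembly
import Fermat.Agent.S51.Exists
import Fermat.Agent.S51.Card
import Fermat.Agent.S51.Descent
import Fermat.Agent.S51.Endgame

set_option autoImplicit false
open WeierstrassCurve WeierstrassCurve.Affine WeierstrassCurve.Affine.Point
open CuspForm ModularFormClass UpperHalfPlane
open WeierstrassCurve

namespace Fermat.Agent.S51

theorem result (W : WeierstrassCurve ℤ) (hΔ : W.Δ ≠ 0) (hW : W.IsSemistableModel) : W.ModRepIsIrreducible 3 ∨ W.ModRepIsIrreducible 5 := by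
  have hΔ' : ((W.map (Int.castRingHom ℚ))⁄(AlgebraicClosure ℚ)).Δ ≠ 0 := by
    simp only [Affine.baseChange, WeierstrassCurve.baseChange, WeierstrassCurve.map_Δ]
    simpa using hΔ
  have hc4 : ((W.map (Int.castRingHom ℚ))⁄(AlgebraicClosure ℚ)).c₄ ≠ 0 := by
    simp only [Affine.baseChange, WeierstrassCurve.baseChange, WeierstrassCurve.map_c₄]
    simpa using c₄_ne_zero_of_semistable W hW hΔ
  exact core W hΔ (exists_three_torsion hΔ') (exists_five_torsion hΔ' hc4)
    (card_three_torsionBy _) (card_five_torsionBy _)
    rat_points_15a1 (semistable_endgame W hW)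

end Fermat.Agent.S51
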