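import Fermat.Statements.S53
import Fermat.Agent.S53.Assembly
import Fermat.Agent.S53.UnivRep
import Fermat.Agent.S53.UnivType
import Fermat.Agent.S53.UnivProp

set_option autoImplicit false
set_option autoImplicit false
open GaloisRep

namespace Fermat.Agent.S53

theorem result
    (𝒪 : Type) [CommRing 𝒪] [IsDomain 𝒪] [IsDiscreteValuationRing 𝒪]
    [IsAdicComplete (IsLocalRing.maximalIdeal 𝒪) 𝒪] [Finite (IsLocalRing.ResidueField 𝒪)]
    (ρbar : ResidualGaloisRep (IsLocalRing.ResidueField 𝒪))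
    (𝒟 : ∀ ⦃A : Type⦄ [CommRing A] [IsLocalRing A] [Algebra 𝒪 A], GaloisRepAdic A → Prop)
    (habs : ρbar.IsAbsolutelyIrreducible)
    (h𝒟 : GaloisRep.IsDeformationCondition 𝒪 𝒟)
    (hbar : 𝒟 (GaloisRepAdic.ofResidualGaloisRep ρbar))
    (hfin : GaloisRep.TangentFinite 𝒪 ρbar 𝒟) :
    Nonempty (GaloisRep.DeformationRingData 𝒪 ρbar 𝒟) := by
  obtain ⟨γ, hγ⟩ := exists_isResFrame ρbar habs
  obtain ⟨cbar, hcbar⟩ := exists_resHasStructConst ρbar γ hγ
  have H : Setup 𝒪 ρbar 𝒟 γ cbar := ⟨h𝒟, hγ, hcbar⟩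
  obtain ⟨J, hT, ⟨D⟩⟩ := exists_tower H hbar hfin
  obtain ⟨ρ, hf, hc⟩ := exists_univ_rep H hT D
  exact ⟨{ R := D.R
           residue_surjective := D.residue_surjective
           absIrr := habs
           ρ := ρ
           isOfType := isOfType_univ H hT D ρ hf hc
           residual_isEquiv := residual_isEquiv_of_isFrameFor ρbar γ hγ cbar hcbar _ ρ hf
             (cUniv D) hc (hT.residue_cUniv D)
           universal := fun A _ _ _ _ _ _ hres ρA h𝒟A hρA =>
             universal_univ H hT D ρ hf hc A hres ρA h𝒟A hρA }⟩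

end Fermat.Agent.S53
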