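import Fermat.Statements.S57
import Fermat.Agent.S57.Main

set_option autoImplicit false
open Algebra Algebra.PatchingLevel

namespace Fermat.Agent.S57

theorem result
    {𝒪 : Type} [CommRing 𝒪] [IsDomain 𝒪] [IsDiscreteValuationRing 𝒪]
    {r : ℕ} {R : Type} [CommRing R] [Algebra 𝒪 R]
    {M : Type} [AddCommGroup M] [Module R M] [Nontrivial M]
    (L : Algebra.PatchingLevel 𝒪 r R M ⊥) :
    Module.Free R M ∧ Module.annihilator R M = ⊥ ∧
      RingHom.ker L.ψ = Ideal.span (Set.range fun i : Fin r => L.φ (MvPowerSeries.X i)) := by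
  classical
  have hfree : Module.Free (MvPowerSeries (Fin r) 𝒪) L.N := free_N L
  have hfin : Module.Finite (MvPowerSeries (Fin r) 𝒪) L.N := finite_N L
  let ι := Module.Free.ChooseBasisIndex (MvPowerSeries (Fin r) 𝒪) L.N
  let β : Module.Basis ι (MvPowerSeries (Fin r) 𝒪) L.N :=
    Module.Free.chooseBasis (MvPowerSeries (Fin r) 𝒪) L.N
  set I : Ideal (MvPowerSeries (Fin r) 𝒪) :=
    Ideal.span (Set.range fun i : Fin r => L.φ (MvPowerSeries.X i)) with hI
  have hI_le : I ≤ RingHom.ker L.ψ := by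
    rw [hI, Ideal.span_le]
    rintro _ ⟨i, rfl⟩
    exact L.ψ_φ_X i
  have hker : ∀ x : L.N, L.π x = 0 ↔ ∀ i, β.repr x i ∈ I := fun x =>
    (L.ker_π x).trans (mem_ideal_smul_top_iff_repr β I x)
  have hπ_sum : ∀ (f : ι → MvPowerSeries (Fin r) 𝒪),
      L.π (∑ i, f i • β i) = ∑ i, L.ψ (f i) • L.π (β i) := by
    intro f
    rw [map_sum]
    exact Finset.sum_congr rfl fun i _ => L.π_smul _ _
  have hrepr_sum : ∀ (f : ι → MvPowerSeries (Fin r) 𝒪) (j : ι),
      β.repr (∑ i, f i • β i) j = f j := by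
    intro f j
    simp [Finsupp.single_apply]
  -- the candidate basis of `M`
  let v : ι → M := fun i => L.π (β i)
  have hli : LinearIndependent R v := by
    rw [Fintype.linearIndependent_iff]
    intro g hg j
    choose f hf using fun i => L.ψ_surjective (g i)
    have h0 : L.π (∑ i, f i • β i) = 0 := by
      rw [hπ_sum, ← hg]
      exact Finset.sum_congr rfl fun i _ => by rw [hf i]
    have h1 := (hker _).1 h0 j
    rw [hrepr_sum] at h1
    have h2 := hI_le h1
    rw [RingHom.mem_ker, hf j] at h2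
    exact h2
  have hsp : ⊤ ≤ Submodule.span R (Set.range v) := by
    intro m _
    obtain ⟨x, rfl⟩ := L.π_surjective m
    rw [← β.sum_repr x, hπ_sum]
    exact Submodule.sum_mem _ fun i _ =>
      Submodule.smul_mem _ _ (Submodule.subset_span ⟨i, rfl⟩)
  let b' : Module.Basis ι R M := Module.Basis.mk hli hsp
  have hb' : ∀ i, b' i = v i := fun i => by simp [b']
  have hne : Nonempty ι := by
    by_contra hemp
    rw [not_nonempty_iff] at hemp
    obtain ⟨m, hm⟩ := exists_ne (0 : M)
    apply hm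
    have := b'.sum_repr m
    rw [← this]
    simp
  obtain ⟨i₀⟩ := hne
  refine ⟨Module.Free.of_basis b', ?_, ?_⟩
  · rw [eq_bot_iff]
    intro a ha
    rw [Module.mem_annihilator] at ha
    have h1 := ha (b' i₀)
    have h2 := congrArg (fun z => b'.repr z i₀) h1
    simpa using h2
  · refine le_antisymm ?_ hI_le
    intro f hf
    rw [RingHom.mem_ker] at hf
    have h0 : L.π (f • β i₀) = 0 := by rw [L.π_smul, hf, zero_smul]
    have h1 := (hker _).1 h0 i₀
    simpa using h1

end Fermat.Agent.S57
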